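import Fermat.Prelude.Def_CuspForm_Newforms
import Fermat.Prelude.Def_FLTPrelim_Modularity

/-!
# Program E (S58), node (HECKE-1): the newform of minimal level carrying an eigensystem

The Prelude's `CuspForm.IsNewform` is eigensystem-based: `g` of level `M` is a newform iff it is a
normalized eigenform and NO normalized eigenform of a proper divisor level `M' ∣ M` has the same
Hecke eigenvalues `a_ℓ` at all primes `ℓ ∤ M`.  Hence a newform comes for free from any normalized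
eigenform `f` of level `N ≠ 0`: take `M ∣ N` MINIMAL such that some normalized eigenform of level
`M` has the eigenvalues of `f` at all primes `ℓ ∤ N`.

* `exists_newform_of_eigensystem` : `f` a normalized eigenform of level `N ≠ 0` ⇒ there are
  `M ∣ N` and a newform `g` of level `M` with `a_ℓ(g) = a_ℓ(f)` for every prime `ℓ ∤ N`;
* `exists_newform_of_isModularModelOfLevel` : the `S58`-facing corollary — `W` modular of level
  `N ≠ 0` ⇒ `M ∣ N` and a newform `g` of level `M` with `a_ℓ(g) = a_ℓ(W)` for every good prime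
  `ℓ ∤ N` of `W`.
-/

set_option autoImplicit false

open CuspForm ModularFormClass CongruenceSubgroup

namespace Fermat.Agent.EC.Hecke.MinLevel

/-- the levels `M ∣ N` carrying the eigensystem of `f` off `N` -/
def CarriesOff {N : ℕ} (f : CuspForm (Gamma0 N) 2) (M : ℕ) : Prop :=
  M ∣ N ∧ ∃ g : CuspForm (Gamma0 M) 2, g.IsNormalizedEigenform ∧
    ∀ ℓ : ℕ, ℓ.Prime → ¬ ℓ ∣ N → qCoeff g ℓ = qCoeff f ℓ

theorem carriesOff_self {N : ℕ} {f : CuspForm (Gamma0 N) 2} (hf : f.IsNormalizedEigenform) :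
    CarriesOff f N :=
  ⟨dvd_rfl, f, hf, fun _ _ _ => rfl⟩

/-- **(HECKE-1)** A normalized eigenform `f` of level `N ≠ 0` has a newform `g` of some level
`M ∣ N` with the same Hecke eigenvalues at all primes `ℓ ∤ N`. -/
theorem exists_newform_of_eigensystem {N : ℕ} (hN : N ≠ 0) {f : CuspForm (Gamma0 N) 2}
    (hf : f.IsNormalizedEigenform) :
    ∃ M : ℕ, M ∣ N ∧ ∃ g : CuspForm (Gamma0 M) 2, g.IsNewform ∧
      ∀ ℓ : ℕ, ℓ.Prime → ¬ ℓ ∣ N → qCoeff g ℓ = qCoeff f ℓ := by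
  classical
  have hex : ∃ M, CarriesOff f M := ⟨N, carriesOff_self hf⟩
  obtain ⟨hMN, g, hg, hgf⟩ := Nat.find_spec hex
  have hM0 : Nat.find hex ≠ 0 := by
    intro h0
    rw [h0] at hMN
    exact hN (zero_dvd_iff.mp hMN)
  refine ⟨Nat.find hex, hMN, g, ⟨hg, ?_⟩, hgf⟩
  rintro M' hM'M hne ⟨g', hg', hg'g⟩
  have hlt : M' < Nat.find hex :=
    lt_of_le_of_ne (Nat.le_of_dvd (Nat.pos_of_ne_zero hM0) hM'M) hne
  refine Nat.find_min hex hlt ⟨hM'M.trans hMN, g', hg', fun ℓ hℓ hℓN => ?_⟩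
  rw [hg'g ℓ hℓ (fun h => hℓN (h.trans hMN)), hgf ℓ hℓ hℓN]

/-- **(HECKE-1), `S58`-facing form**: a Weierstrass model `W` over `ℤ` which is modular of level
`N ≠ 0` is "modular by a newform" `g` of some level `M ∣ N`: `a_ℓ(g) = a_ℓ(W)` for every good prime
`ℓ ∤ N` of `W`. -/
theorem exists_newform_of_isModularModelOfLevel {W : WeierstrassCurve ℤ} {N : ℕ} (hN : N ≠ 0)
    (h : W.IsModularModelOfLevel N) :
    ∃ M : ℕ, M ∣ N ∧ ∃ g : CuspForm (Gamma0 M) 2, g.IsNewform ∧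
      ∀ ℓ : ℕ, ℓ.Prime → W.IsGoodPrimeFor ℓ → ¬ ℓ ∣ N →
        qCoeff g ℓ = (W.apOfModel ℓ : ℂ) := by
  obtain ⟨f, hf, hfW⟩ := h
  obtain ⟨M, hMN, g, hg, hgf⟩ := exists_newform_of_eigensystem hN hf
  exact ⟨M, hMN, g, hg, fun ℓ hℓ hgood hℓN => (hgf ℓ hℓ hℓN).trans (hfW ℓ hℓ hgood hℓN)⟩

end Fermat.Agent.EC.Hecke.MinLevel
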