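import Fermat.Agent.EC.Final.Contracts
import Fermat.Agent.EC.Hecke.MinLevel

/-!
# Program E (S58), block HECKE: the contract `HeckeOut` of the top-level binder map — PROVED

`heckeOut : Final.Contracts.HeckeOut` : a modular model `W` of level `N ≠ 0` whose bad primes divide
`N` has a newform `g` of some level `M ∣ N` with `a_ℓ(g) = a_ℓ(W)` for every prime `ℓ ∤ N`
(`MinLevel.exists_newform_of_isModularModelOfLevel`; a prime `ℓ ∤ N` is good for `W` by `hbad`).
-/

set_option autoImplicit false

open CuspForm ModularFormClass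

namespace Fermat.Agent.EC.Hecke.Out

/-- **(HECKE) the block contract `HeckeOut` holds.** -/
theorem heckeOut : Fermat.Agent.EC.Final.Contracts.HeckeOut := by
  intro W N hN0 hN hbad
  obtain ⟨M, hMN, g, hg, hc⟩ :=
    Fermat.Agent.EC.Hecke.MinLevel.exists_newform_of_isModularModelOfLevel hN0 hN
  exact ⟨M, hMN, g, hg, fun ℓ hℓ hℓN => hc ℓ hℓ (fun hΔ => hℓN (hbad ℓ hℓ hΔ)) hℓN⟩

end Fermat.Agent.EC.Hecke.Out
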