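import Fermat.Agent.Jac.EigenHecke

/-!
# Program E (S58), block HECKE, node (2a): the eigencharacter of a normalized eigenform

`g` a normalized eigenform of level `N ≠ 0` and weight `2` (coefficientwise, as in the Prelude).
Every operator of the Hecke algebra `heckeAlgebra N 2 S` (any `S`) has `g` as an eigenvector, and
`T ↦ a₁(T g)` is a ring homomorphism

* `eigenChar hg S : heckeAlgebra N 2 S →+* ℂ` with `eigenChar_T : eigenChar hg S (T_ℓ) = a_ℓ(g)`,
  `eigenChar_U : eigenChar hg S (U_q) = a_q(g)`, `eigenChar_smul : T g = eigenChar hg S T • g`;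
* `eigenChar_mem_range_intCast` : if the eigenvalues of the generators are rational integers, so
  are all the values of the eigencharacter;
* `eigenCharInt hg S hint : heckeAlgebra N 2 S →+* ℤ` (the eigencharacter with values in `ℤ`) and
  `iotaOfInt hg S hint R : (eigenChar hg S).range →+* R` for every ring `R`, with
  `iotaOfInt_comp_T : (iotaOfInt ..).comp (eigenChar hg S).rangeRestrict (T_ℓ) = (a ℓ : R)`.
-/

set_option autoImplicit false
set_option linter.unusedSectionVars false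

open CuspForm ModularFormClass CongruenceSubgroup Fermat.Agent.S49

noncomputable section

namespace Fermat.Agent.EC.Hecke.EigenChar

variable {N : ℕ} [NeZero N] {g : CuspForm (Gamma0 N) 2}

/-- a normalized eigenform is nonzero -/
theorem ne_zero_of_isNormalizedEigenform (hg : g.IsNormalizedEigenform) : g ≠ 0 := by
  rintro rfl
  have h1 := hg.qCoeff_one
  have h0 : qCoeff ⇑(0 : CuspForm (Gamma0 N) 2) 1 = 0 := by
    have := map_zero (qCoeffLin N 2 1)
    rwa [qCoeffLin_apply] at this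
  rw [h0] at h1
  exact zero_ne_one h1

/-- The subalgebra of the operators which have `g` as an eigenvector. -/
def eigenAlg (g : CuspForm (Gamma0 N) 2) :
    Subalgebra ℤ (Module.End ℂ (CuspForm (Gamma0 N) 2)) where
  carrier := {T | ∃ x : ℂ, T g = x • g}
  mul_mem' := by
    rintro T T' ⟨x, hx⟩ ⟨x', hx'⟩
    exact ⟨x' * x, by rw [Module.End.mul_apply, hx', map_smul, hx, smul_smul]⟩
  one_mem' := ⟨1, by rw [Module.End.one_apply, one_smul]⟩
  add_mem' := by
    rintro T T' ⟨x, hx⟩ ⟨x', hx'⟩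
    exact ⟨x + x', by rw [LinearMap.add_apply, hx, hx', add_smul]⟩
  zero_mem' := ⟨0, by rw [LinearMap.zero_apply, zero_smul]⟩
  algebraMap_mem' r := ⟨(r : ℂ), by
    rw [Algebra.algebraMap_eq_smul_one, LinearMap.smul_apply, Module.End.one_apply]
    exact (Int.cast_smul_eq_zsmul ℂ r g).symm⟩

theorem mem_eigenAlg {T : Module.End ℂ (CuspForm (Gamma0 N) 2)} :
    T ∈ eigenAlg g ↔ ∃ x : ℂ, T g = x • g := Iff.rfl

/-- The Hecke algebra acts on a normalized eigenform through scalars. -/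
theorem heckeAlgebra_le_eigenAlg (hg : g.IsNormalizedEigenform) (S : Set ℕ) :
    heckeAlgebra N 2 S ≤ eigenAlg g := by
  refine Algebra.adjoin_le ?_
  rintro T (⟨ℓ, hℓ, hℓN, -, rfl⟩ | ⟨q, hqN, hq, -, rfl⟩)
  · exact ⟨_, Fermat.Agent.Jac.heckeTLin_eq_smul hg hℓ hℓN⟩
  · exact ⟨_, Fermat.Agent.Jac.heckeULin_eq_smul hg hq hqN⟩

/-- The eigenvalue `a₁(T g)` of an operator. -/
def eigenvalue (g : CuspForm (Gamma0 N) 2) (T : Module.End ℂ (CuspForm (Gamma0 N) 2)) : ℂ :=
  qCoeff ⇑(T g) 1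

theorem eigenvalue_of_eq (hg : g.IsNormalizedEigenform)
    {T : Module.End ℂ (CuspForm (Gamma0 N) 2)} {x : ℂ} (h : T g = x • g) :
    eigenvalue g T = x := by
  rw [eigenvalue, h, qCoeff_smul', hg.qCoeff_one, mul_one]

theorem apply_eq_eigenvalue_smul (hg : g.IsNormalizedEigenform)
    {T : Module.End ℂ (CuspForm (Gamma0 N) 2)} (hT : T ∈ eigenAlg g) :
    T g = eigenvalue g T • g := by
  obtain ⟨x, hx⟩ := hT
  rw [eigenvalue_of_eq hg hx, hx]

/-- **The eigencharacter of a normalized eigenform** on the Hecke algebra away from `S`. -/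
def eigenChar (hg : g.IsNormalizedEigenform) (S : Set ℕ) : heckeAlgebra N 2 S →+* ℂ where
  toFun T := eigenvalue g (T : Module.End ℂ (CuspForm (Gamma0 N) 2))
  map_one' := eigenvalue_of_eq hg (by
    rw [OneMemClass.coe_one, Module.End.one_apply, one_smul])
  map_mul' T T' := by
    have h := apply_eq_eigenvalue_smul hg (heckeAlgebra_le_eigenAlg hg S T.2)
    have h' := apply_eq_eigenvalue_smul hg (heckeAlgebra_le_eigenAlg hg S T'.2)
    refine eigenvalue_of_eq hg ?_
    rw [MulMemClass.coe_mul, Module.End.mul_apply, h', map_smul, h, smul_smul, mul_comm]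
  map_zero' := eigenvalue_of_eq hg (by
    rw [ZeroMemClass.coe_zero, LinearMap.zero_apply, zero_smul])
  map_add' T T' := by
    have h := apply_eq_eigenvalue_smul hg (heckeAlgebra_le_eigenAlg hg S T.2)
    have h' := apply_eq_eigenvalue_smul hg (heckeAlgebra_le_eigenAlg hg S T'.2)
    refine eigenvalue_of_eq hg ?_
    rw [AddMemClass.coe_add, LinearMap.add_apply, h, h', add_smul]

theorem eigenChar_apply (hg : g.IsNormalizedEigenform) (S : Set ℕ) (T : heckeAlgebra N 2 S) :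
    eigenChar hg S T = eigenvalue g (T : Module.End ℂ (CuspForm (Gamma0 N) 2)) := rfl

/-- the Hecke algebra acts on `g` through its eigencharacter -/
theorem eigenChar_smul (hg : g.IsNormalizedEigenform) (S : Set ℕ) (T : heckeAlgebra N 2 S) :
    (T : Module.End ℂ (CuspForm (Gamma0 N) 2)) g = eigenChar hg S T • g :=
  apply_eq_eigenvalue_smul hg (heckeAlgebra_le_eigenAlg hg S T.2)

/-- **`hchig`** : the eigencharacter sends `T_ℓ` to `a_ℓ(g)`. -/
theorem eigenChar_T (hg : g.IsNormalizedEigenform) {S : Set ℕ} {ℓ : ℕ} (hℓ : ℓ.Prime)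
    (hℓN : ¬ ℓ ∣ N) (hℓS : ℓ ∉ S) :
    eigenChar hg S (heckeAlgebra.T hℓ hℓN hℓS) = qCoeff ⇑g ℓ :=
  eigenvalue_of_eq hg (Fermat.Agent.Jac.heckeTLin_eq_smul hg hℓ hℓN)

/-- the eigencharacter sends `U_q` to `a_q(g)` -/
theorem eigenChar_U (hg : g.IsNormalizedEigenform) {S : Set ℕ} {q : ℕ} (hq : q.Prime)
    (hqN : q ∣ N) (hqS : q ∉ S) :
    eigenChar hg S (heckeAlgebra.U hq hqN hqS) = qCoeff ⇑g q :=
  eigenvalue_of_eq hg (Fermat.Agent.Jac.heckeULin_eq_smul hg hq hqN)

/-- **Integrality of the eigencharacter**: if the eigenvalues `a_ℓ(g)` of the generators `T_ℓ`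
(`ℓ ∤ N`, `ℓ ∉ S`) and `U_q` (`q ∣ N`, `q ∉ S`) are rational integers, so is every value of the
eigencharacter. -/
theorem eigenChar_mem_range_intCast (hg : g.IsNormalizedEigenform) (S : Set ℕ)
    (hint : ∀ ℓ : ℕ, ℓ.Prime → ℓ ∉ S → ∃ a : ℤ, qCoeff ⇑g ℓ = (a : ℂ))
    (T : heckeAlgebra N 2 S) : eigenChar hg S T ∈ (Int.castRingHom ℂ).range := by
  obtain ⟨T, hT⟩ := T
  induction hT using Algebra.adjoin_induction with
  | mem T hT =>
    rcases hT with ⟨ℓ, hℓ, hℓN, hℓS, rfl⟩ | ⟨q, hqN, hq, hqS, rfl⟩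
    · obtain ⟨a, ha⟩ := hint ℓ hℓ hℓS
      exact ⟨a, ha.symm.trans (eigenChar_T hg hℓ hℓN hℓS).symm⟩
    · obtain ⟨a, ha⟩ := hint q hq hqS
      exact ⟨a, ha.symm.trans (eigenChar_U hg hq hqN hqS).symm⟩
  | algebraMap r =>
    refine ⟨r, ?_⟩
    have h : (⟨algebraMap ℤ _ r, Subalgebra.algebraMap_mem _ r⟩ : heckeAlgebra N 2 S) =
        algebraMap ℤ (heckeAlgebra N 2 S) r := rfl
    rw [h, eq_intCast, eq_intCast, map_intCast]
  | add T T' hT hT' h h' =>
    have e : (⟨T + T', Subalgebra.add_mem _ hT hT'⟩ : heckeAlgebra N 2 S) =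
        ⟨T, hT⟩ + ⟨T', hT'⟩ := rfl
    rw [e, map_add]
    exact Subring.add_mem _ h h'
  | mul T T' hT hT' h h' =>
    have e : (⟨T * T', Subalgebra.mul_mem _ hT hT'⟩ : heckeAlgebra N 2 S) =
        ⟨T, hT⟩ * ⟨T', hT'⟩ := rfl
    rw [e, map_mul]
    exact Subring.mul_mem _ h h'

/-- `ℤ` is its image in `ℂ`. -/
def intEquivRange : ℤ ≃+* (Int.castRingHom ℂ).range :=
  RingEquiv.ofBijective (Int.castRingHom ℂ).rangeRestrict
    ⟨fun _ _ h => Int.cast_injective (congrArg Subtype.val h),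
      (Int.castRingHom ℂ).rangeRestrict_surjective⟩

theorem coe_intEquivRange (a : ℤ) : ((intEquivRange a : (Int.castRingHom ℂ).range) : ℂ) = a := rfl

theorem intEquivRange_symm_apply {x : (Int.castRingHom ℂ).range} {a : ℤ} (h : (x : ℂ) = a) :
    intEquivRange.symm x = a := by
  rw [RingEquiv.symm_apply_eq]
  exact Subtype.ext h

variable (hg : g.IsNormalizedEigenform) (S : Set ℕ)
  (hint : ∀ ℓ : ℕ, ℓ.Prime → ℓ ∉ S → ∃ a : ℤ, qCoeff ⇑g ℓ = (a : ℂ))

/-- **The eigencharacter with values in `ℤ`.** -/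
def eigenCharInt : heckeAlgebra N 2 S →+* ℤ :=
  (intEquivRange.symm : (Int.castRingHom ℂ).range →+* ℤ).comp
    ((eigenChar hg S).codRestrict (Int.castRingHom ℂ).range
      (eigenChar_mem_range_intCast hg S hint))

theorem coe_eigenCharInt (T : heckeAlgebra N 2 S) :
    ((eigenCharInt hg S hint T : ℤ) : ℂ) = eigenChar hg S T := by
  obtain ⟨a, ha⟩ := eigenChar_mem_range_intCast hg S hint T
  have h : eigenCharInt hg S hint T = a :=
    intEquivRange_symm_apply (x := ⟨eigenChar hg S T, _⟩) ha.symm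
  rw [h]
  exact ha

theorem eigenCharInt_T {ℓ : ℕ} (hℓ : ℓ.Prime) (hℓN : ¬ ℓ ∣ N) (hℓS : ℓ ∉ S) {a : ℤ}
    (ha : qCoeff ⇑g ℓ = (a : ℂ)) :
    eigenCharInt hg S hint (heckeAlgebra.T hℓ hℓN hℓS) = a := by
  apply Int.cast_injective (α := ℂ)
  rw [coe_eigenCharInt, eigenChar_T, ha]

/-- **`iota`** : the image of the eigencharacter maps to every ring. -/
def iotaOfInt (R : Type*) [Ring R] : (eigenChar hg S).range →+* R :=
  (Int.castRingHom R).comp
    ((intEquivRange.symm : (Int.castRingHom ℂ).range →+* ℤ).comp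
      (Subring.inclusion (by
        rintro x ⟨T, rfl⟩
        exact eigenChar_mem_range_intCast hg S hint T)))

theorem iotaOfInt_apply (R : Type*) [Ring R] {x : (eigenChar hg S).range} {a : ℤ}
    (h : (x : ℂ) = a) : iotaOfInt hg S hint R x = (a : R) := by
  have h1 : intEquivRange.symm (Subring.inclusion (S := (eigenChar hg S).range)
      (T := (Int.castRingHom ℂ).range) (by
        rintro x ⟨T, rfl⟩
        exact eigenChar_mem_range_intCast hg S hint T) x) = a :=
    intEquivRange_symm_apply h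
  exact congrArg (Int.castRingHom R) h1

/-- `iota ∘ χ_g` is the eigencharacter with values in `ℤ`, pushed to `R`. -/
theorem iotaOfInt_comp (R : Type*) [Ring R] (T : heckeAlgebra N 2 S) :
    (iotaOfInt hg S hint R).comp (eigenChar hg S).rangeRestrict T =
      ((eigenCharInt hg S hint T : ℤ) : R) :=
  iotaOfInt_apply hg S hint R (coe_eigenCharInt hg S hint T).symm

/-- **`iota ∘ χ_g` at `T_ℓ`.** -/
theorem iotaOfInt_comp_T (R : Type*) [Ring R] {ℓ : ℕ} (hℓ : ℓ.Prime) (hℓN : ¬ ℓ ∣ N)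
    (hℓS : ℓ ∉ S) {a : ℤ} (ha : qCoeff ⇑g ℓ = (a : ℂ)) :
    (iotaOfInt hg S hint R).comp (eigenChar hg S).rangeRestrict (heckeAlgebra.T hℓ hℓN hℓS) =
      (a : R) := by
  rw [iotaOfInt_comp, eigenCharInt_T hg S hint hℓ hℓN hℓS ha]

end Fermat.Agent.EC.Hecke.EigenChar
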