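import Fermat.Prelude.Def_CuspForm_Newforms

/-!
# Program E (S58), block HECKE, node (1): the newform of minimal level under a normalized eigenform

`f` a normalized eigenform of level `N ≠ 0` (in the coefficientwise sense of the Prelude).  The
least `M ∣ N` at which the good eigensystem of `f` (the `a_ℓ`, `ℓ ∤ N`) occurs carries a NEWFORM `g`
(in the eigensystem sense of the Prelude: `CuspForm.IsNewform`) with `a_ℓ(g) = a_ℓ(f)` for every
prime `ℓ ∤ N`.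

* `exists_newform_of_isNormalizedEigenform` : the statement above;
* `exists_newform_of_isModularModelOfLevel` : for a Weierstrass model `W` over `ℤ` which is modular
  of level `N ≠ 0`, all of whose bad primes divide `N`: a newform `g` of a level `M ∣ N` with
  `a_ℓ(g) = a_ℓ(W)` for EVERY prime `ℓ ∤ N`;
* `not_cube_dvd_of_dvd` : `M ∣ N`, `N` cube-free ⇒ `M` cube-free.
-/

set_option autoImplicit false

open CuspForm ModularFormClass CongruenceSubgroup WeierstrassCurve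

namespace Fermat.Agent.EC.Hecke.Newform

/-- **The newform of minimal level under a normalized eigenform.** -/
theorem exists_newform_of_isNormalizedEigenform {N : ℕ} (hN0 : N ≠ 0)
    {f : CuspForm (Gamma0 N) 2} (hf : f.IsNormalizedEigenform) :
    ∃ (M : ℕ) (g : CuspForm (Gamma0 M) 2), M ∣ N ∧ g.IsNewform ∧
      ∀ ℓ : ℕ, ℓ.Prime → ¬ ℓ ∣ N → qCoeff g ℓ = qCoeff f ℓ := by
  classical
  have hex : ∃ M : ℕ, M ∣ N ∧ GoodEigensystemOccursAt f M :=
    ⟨N, dvd_rfl, GoodEigensystemOccursAt.refl hf⟩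
  obtain ⟨hMN, g, hg, hgf⟩ := Nat.find_spec hex
  refine ⟨Nat.find hex, g, hMN, ⟨hg, fun M' hM'M hM'ne hocc => ?_⟩, hgf⟩
  obtain ⟨g', hg', hg'g⟩ := hocc
  have hM0 : Nat.find hex ≠ 0 := fun h0 => hN0 (by rw [h0] at hMN; exact zero_dvd_iff.mp hMN)
  have hlt : M' < Nat.find hex :=
    lt_of_le_of_ne (Nat.le_of_dvd (Nat.pos_of_ne_zero hM0) hM'M) hM'ne
  refine Nat.find_min hex hlt ⟨hM'M.trans hMN, g', hg', fun ℓ hℓ hℓN => ?_⟩
  rw [hg'g ℓ hℓ fun h => hℓN (h.trans hMN), hgf ℓ hℓ hℓN]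

/-- **HECKE (1)**: a Weierstrass model over `ℤ` which is modular of level `N ≠ 0`, all of whose bad
primes divide `N`, has the coefficients `a_ℓ`, `ℓ ∤ N`, of a NEWFORM of a level `M ∣ N`. -/
theorem exists_newform_of_isModularModelOfLevel (W : WeierstrassCurve ℤ) {N : ℕ} (hN0 : N ≠ 0)
    (hN : W.IsModularModelOfLevel N)
    (hbad : ∀ ℓ : ℕ, ℓ.Prime → (ℓ : ℤ) ∣ W.Δ → ℓ ∣ N) :
    ∃ (M : ℕ) (g : CuspForm (Gamma0 M) 2), M ∣ N ∧ g.IsNewform ∧
      ∀ ℓ : ℕ, ℓ.Prime → ¬ ℓ ∣ N → qCoeff g ℓ = ((W.apOfModel ℓ : ℤ) : ℂ) := by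
  obtain ⟨f, hf, hfW⟩ := hN
  obtain ⟨M, g, hMN, hg, hgf⟩ := exists_newform_of_isNormalizedEigenform hN0 hf
  refine ⟨M, g, hMN, hg, fun ℓ hℓ hℓN => ?_⟩
  rw [hgf ℓ hℓ hℓN]
  exact hfW ℓ hℓ (fun h => hℓN (hbad ℓ hℓ h)) hℓN

/-- A divisor of a cube-free number is cube-free. -/
theorem not_cube_dvd_of_dvd {M N : ℕ} (hMN : M ∣ N) (hN3 : ∀ q : ℕ, q.Prime → ¬ q ^ 3 ∣ N)
    (q : ℕ) (hq : q.Prime) : ¬ q ^ 3 ∣ M :=
  fun h => hN3 q hq (h.trans hMN)

/-- A level all of whose prime cubes fail to divide it is nonzero. -/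
theorem ne_zero_of_not_cube_dvd {N : ℕ} (hN3 : ∀ q : ℕ, q.Prime → ¬ q ^ 3 ∣ N) : N ≠ 0 := by
  rintro rfl
  exact hN3 2 Nat.prime_two (dvd_zero _)

end Fermat.Agent.EC.Hecke.Newform
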