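import Fermat.Agent.S37
import Fermat.Agent.Pseudo.LamPsiHypProof
import Fermat.Agent.Jac.KummerMapsFinal
import Fermat.Agent.EC.Hecke.EigenChar

/-!
# Program E (S58), block HECKE, node (2b): the Hecke pseudo-character of a newform with rational
integer coefficients, with values in `ℤ_[λ]`

* `nonempty_heckePseudoChar` : the Hecke pseudo-character of `J₀(M)` for ANY character
  `χ : heckeAlgebra M 2 S →+* O'` (`Pseudo.JZ.heckePseudoChar_JZero` with its three inputs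
  `Jac.KMF.kummerMaps M`, `S37.result`, `Pseudo.JZ.lamPsiHyp M S` plugged, as in `BR3/S36Reduce`);
* **`exists_chig_iota_pseudoChar`** : `g` a normalized eigenform of level `M ∣ N` with
  `a_ℓ(g) = a ℓ ∈ ℤ` for every prime `ℓ ∤ N`, `λ` a prime, `S ∋ λ` a finite set containing the primes
  dividing `N`: the data `chig`, `hchig`, `iota` of the frozen statements S35/S36 (so that the
  internal lemmas of their closures apply verbatim) with `O' := ℤ_[λ]`,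
  `(iota ∘ chig) (T_ℓ) = (a ℓ : ℤ_[λ])`, and a Hecke pseudo-character `H` of `χ := iota ∘ chig`.
-/

set_option autoImplicit false
set_option linter.unusedSectionVars false

open CuspForm ModularFormClass CongruenceSubgroup

noncomputable section

namespace Fermat.Agent.EC.Hecke.PseudoChar

open Fermat.Agent.Pseudo Fermat.Agent.Pseudo.JZ Fermat.Agent.Jac Fermat.Agent.EC.Hecke.EigenChar

/-- **The Hecke pseudo-character of `J₀(M)`** for any character of the Hecke algebra away from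
`S ∋ λ`, `S ⊇ primes(M)`, with values in a complete DVR `O'` of residue characteristic `λ`. -/
theorem nonempty_heckePseudoChar {M : ℕ} [NeZero M] (lam : ℕ) [Fact lam.Prime] (S : Finset ℕ)
    (O' : Type) [CommRing O'] [IsDomain O'] [IsDiscreteValuationRing O']
    [IsAdicComplete (IsLocalRing.maximalIdeal O') O']
    (hlamO' : (lam : O') ∈ IsLocalRing.maximalIdeal O')
    (hlamS : lam ∈ S) (hMS : ∀ q : ℕ, q.Prime → q ∣ M → q ∈ S)
    (χ : heckeAlgebra M 2 (↑S : Set ℕ) →+* O') :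
    Nonempty (HeckePseudoChar lam M S O' χ) :=
  heckePseudoChar_JZero hlamS hMS (Fermat.Agent.Jac.KMF.kummerMaps M)
    (Fermat.Agent.S37.result M lam (Fermat.Agent.Jac.heckeOperatorsCommuteBar M))
    (Fermat.Agent.Pseudo.JZ.lamPsiHyp M S) O' hlamO' χ

/-- `λ` lies in the maximal ideal of `ℤ_[λ]`. -/
theorem natCast_mem_maximalIdeal (lam : ℕ) [Fact lam.Prime] :
    ((lam : ℕ) : ℤ_[lam]) ∈ IsLocalRing.maximalIdeal ℤ_[lam] := by
  rw [PadicInt.maximalIdeal_eq_span_p]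
  exact Ideal.mem_span_singleton_self _

/-- **HECKE (2)**: the data `chig`, `hchig`, `iota` of S35/S36 with `O' := ℤ_[λ]` and a Hecke
pseudo-character, for a normalized eigenform with rational integer coefficients off `N`. -/
theorem exists_chig_iota_pseudoChar {M N : ℕ} [NeZero M] (hMN : M ∣ N)
    {g : CuspForm (Gamma0 M) 2} (hg : g.IsNormalizedEigenform) (a : ℕ → ℤ)
    (ha : ∀ ℓ : ℕ, ℓ.Prime → ¬ ℓ ∣ N → qCoeff g ℓ = ((a ℓ : ℤ) : ℂ))
    (lam : ℕ) [Fact lam.Prime] (S : Finset ℕ) (hlamS : lam ∈ S)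
    (hNS : ∀ q : ℕ, q.Prime → q ∣ N → q ∈ S) :
    ∃ (chig : heckeAlgebra M 2 (↑S : Set ℕ) →+* ℂ) (iota : chig.range →+* ℤ_[lam]),
      (∀ (ℓ : ℕ) (hℓ : ℓ.Prime) (hℓM : ¬ ℓ ∣ M) (hℓS : ℓ ∉ (↑S : Set ℕ)),
        chig (heckeAlgebra.T hℓ hℓM hℓS) = qCoeff g ℓ) ∧
      (∀ (ℓ : ℕ) (hℓ : ℓ.Prime) (hℓM : ¬ ℓ ∣ M) (hℓS : ℓ ∉ (↑S : Set ℕ)),
        (iota.comp chig.rangeRestrict) (heckeAlgebra.T hℓ hℓM hℓS) = ((a ℓ : ℤ) : ℤ_[lam])) ∧
      Nonempty (HeckePseudoChar lam M S ℤ_[lam] (iota.comp chig.rangeRestrict)) := by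
  have hint : ∀ ℓ : ℕ, ℓ.Prime → ℓ ∉ (↑S : Set ℕ) → ∃ b : ℤ, qCoeff ⇑g ℓ = (b : ℂ) :=
    fun ℓ hℓ hℓS => ⟨a ℓ, ha ℓ hℓ fun h => hℓS (Finset.mem_coe.mpr (hNS ℓ hℓ h))⟩
  refine ⟨eigenChar hg (↑S : Set ℕ), iotaOfInt hg (↑S : Set ℕ) hint ℤ_[lam],
    fun ℓ hℓ hℓM hℓS => eigenChar_T hg hℓ hℓM hℓS,
    fun ℓ hℓ hℓM hℓS => iotaOfInt_comp_T hg (↑S : Set ℕ) hint ℤ_[lam] hℓ hℓM hℓS
      (ha ℓ hℓ fun h => hℓS (Finset.mem_coe.mpr (hNS ℓ hℓ h))), ?_⟩
  exact nonempty_heckePseudoChar lam S ℤ_[lam] (natCast_mem_maximalIdeal lam) hlamS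
    (fun q hq hqM => hNS q hq (hqM.trans hMN)) _

end Fermat.Agent.EC.Hecke.PseudoChar
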